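/-
S34 / Program B', M6b piece X3 (helper43): the second degeneracy map `β` maps the chart of the
standard base function into the chart of its `α`-image, on the forms over ANY intermediate field
`E` of `ℚ̄ / ℚ` (no normality; in the application `E` is the inertia field).

Carriers: `A₀ = A ∩ E`, `K = ↥(ratForm M E)`, `L = ↥(ratForm (M * q) E)`, the algebra structures
`H19.algComap` on both levels; `α = alphaForm M q E`, `β = betaForm M q E`.

* `betaForm_jtop_mem_chart`   : `β x ∈ chart A₀ (α x)` for `x = j(q^M)` (modular equation);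
* `betaForm_mem_chart_of_jrel` : `β x ∈ chart A₀ (α x)` for a rational coordinate `x` with the two
  descended setups and a relation `j(q^M) · D(x) = N(x)` (`N`, `D` monic over `ℤ`,
  `deg D < deg N`, coprime up to an integer prime to `q`): helper42's `beta_mem_chart_of_rel` on
  the `E`-forms;
* `betaForm_mem_chart_of_mem` : `β (chart A₀ x) ⊆ chart A₀ (α x)` from `β x ∈ chart A₀ (α x)`;
* `hbetaC_ratForm`            : the hypothesis `hβC` of `H68.crossing_regular_of_dsetup` for the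
  standard base function (`j(q^M)`, the Hauptmodul of level two for `q = 3`, of level three for
  `q = 2`).
-/
import Fermat.Agent.S34.H30.Final
import Fermat.Agent.S34.H68.CrossNode
import Fermat.Agent.S34.H42.CuspHaupt
import Fermat.Agent.S34.H19.CuspTop
import Fermat.Agent.S34.H19.HauptRel
import Fermat.Agent.S34.H61.Concrete3
import Fermat.Agent.S34.H59.FDeg

set_option autoImplicit false
set_option linter.style.haveILetI false
set_option linter.unusedSectionVars false

open AlgebraicCurve ModularCurve Polynomial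

noncomputable section

namespace Fermat.Agent.S34.H43

open Fermat.Agent.S18 Fermat.Agent.S18.H74 Fermat.Agent.S18.H19 Fermat.Agent.S34.H19
  Fermat.Agent.S34.H61 Fermat.Agent.S34.H64 Fermat.Agent.S28

variable {M q : ℕ} [NeZero M] [hqF : Fact q.Prime] {hqM : ¬ q ∣ M} {A : ValuationSubring Kb}
  {hA : A.LiesOverPrime q} {O₁ : ValuationSubring (FN (M * q))}
  {w : FN (M * q) ≃+* FN (M * q)}

/-- The modular equations between `α x` and `β x` on the `E`-form, `x = j(q^M)`. -/
theorem evalY_alphaForm_betaForm_jtop (M q : ℕ) [NeZero M] [hqF : Fact q.Prime]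
    (E : IntermediateField ℚ Kb) (x : ↥(ratForm M E))
    (hx : (x : FN M) = Fermat.Agent.S18.H28.jtop M) {Φ : Polynomial (Polynomial ℤ)}
    (hΦ : IsModPoly q Φ) :
    haveI : NeZero q := ⟨hqF.out.ne_zero⟩
    (evalY (alphaForm M q E x) Φ).eval (betaForm M q E x) = 0 ∧
      (evalY (betaForm M q E x) Φ).eval (alphaForm M q E x) = 0 := by
  haveI : NeZero q := ⟨hqF.out.ne_zero⟩
  obtain ⟨hm12, hm21⟩ := Fermat.Agent.S34.H19.evalY_alpha_beta_jtop M q hΦ
  constructor
  · apply (algebraMap ↥(ratForm (M * q) E) (FN (M * q))).injective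
    rw [map_evalY_eval, map_zero]
    show (evalY (heckeAlphaBar Kb M q (x : FN M)) Φ).eval (heckeBetaBar Kb M q (x : FN M)) = 0
    rw [hx]
    exact hm12
  · apply (algebraMap ↥(ratForm (M * q) E) (FN (M * q))).injective
    rw [map_evalY_eval, map_zero]
    show (evalY (heckeBetaBar Kb M q (x : FN M)) Φ).eval (heckeAlphaBar Kb M q (x : FN M)) = 0
    rw [hx]
    exact hm21

/-- **`β j ∈ chart A₀ (α j)` for `j = j(q^M)`**, on the `E`-forms (the modular equation). -/
theorem betaForm_jtop_mem_chart (M q : ℕ) [NeZero M] [hqF : Fact q.Prime]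
    (A : ValuationSubring Kb) (E : IntermediateField ℚ Kb) (x : ↥(ratForm M E))
    (hx : (x : FN M) = Fermat.Agent.S18.H28.jtop M) :
    haveI : NeZero q := ⟨hqF.out.ne_zero⟩
    betaForm M q E x ∈ @H19.chart ↥(A.comap (algebraMap E Kb)) _ ↥(ratForm (M * q) E) _
      (H19.algComap (A.comap (algebraMap E Kb)) (ratForm (M * q) E)) (alphaForm M q E x) := by
  haveI : NeZero q := ⟨hqF.out.ne_zero⟩
  letI := H19.algComap (A.comap (algebraMap E Kb)) (ratForm (M * q) E)
  obtain ⟨Φ, hΦ⟩ := Fermat.Agent.S28.hasModPolys q hqF.out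
  exact Fermat.Agent.S34.H42.mem_chart_of_evalY hΦ _ _
    (evalY_alphaForm_betaForm_jtop M q E x hx hΦ).1

/-- `β` maps the chart of `x` into the chart of `α x` as soon as `β x` lies there. -/
theorem betaForm_mem_chart_of_mem (M q : ℕ) [NeZero M] [hqF : Fact q.Prime]
    (A : ValuationSubring Kb) (E : IntermediateField ℚ Kb) (x : ↥(ratForm M E))
    (hβx : haveI : NeZero q := ⟨hqF.out.ne_zero⟩
      betaForm M q E x ∈ @H19.chart ↥(A.comap (algebraMap E Kb)) _ ↥(ratForm (M * q) E) _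
        (H19.algComap (A.comap (algebraMap E Kb)) (ratForm (M * q) E)) (alphaForm M q E x)) :
    haveI : NeZero q := ⟨hqF.out.ne_zero⟩
    ∀ f ∈ @H19.chart ↥(A.comap (algebraMap E Kb)) _ ↥(ratForm M E) _
        (H19.algComap (A.comap (algebraMap E Kb)) (ratForm M E)) x,
      betaForm M q E f ∈ @H19.chart ↥(A.comap (algebraMap E Kb)) _ ↥(ratForm (M * q) E) _
        (H19.algComap (A.comap (algebraMap E Kb)) (ratForm (M * q) E)) (alphaForm M q E x) := by
  haveI : NeZero q := ⟨hqF.out.ne_zero⟩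
  letI := H19.algComap (A.comap (algebraMap E Kb)) (ratForm M E)
  letI := H19.algComap (A.comap (algebraMap E Kb)) (ratForm (M * q) E)
  letI := algAlpha M q E
  haveI := isScalarTower_algAlpha M q E A
  exact Fermat.Agent.S34.H68.beta_mem_chart x (betaForm M q E)
    (fun a => betaForm_algebraMap M q E (a : E)) hβx

/-- An integer prime to `q` is a unit of `A ∩ E`. -/
theorem isUnit_natCast_comap (A : ValuationSubring Kb) (hA : A.LiesOverPrime q)
    (E : IntermediateField ℚ Kb) (r : ℕ) (hr : ¬ q ∣ r) :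
    IsUnit ((r : ℕ) : ↥(A.comap (algebraMap E Kb))) := by
  have hrA : ((r : ℕ) : Kb)⁻¹ ∈ A := Fermat.Agent.S18.H60.natCast_inv_mem_of_not_dvd A hA r hr
  have hr0 : r ≠ 0 := by
    rintro rfl
    exact hr (dvd_zero q)
  have hmem : (((r : ℕ) : E))⁻¹ ∈ A.comap (algebraMap E Kb) := by
    show algebraMap E Kb (((r : ℕ) : E))⁻¹ ∈ A
    rw [map_inv₀, map_natCast]
    exact hrA
  refine IsUnit.of_mul_eq_one (⟨_, hmem⟩ : ↥(A.comap (algebraMap E Kb))) ?_
  apply Subtype.ext
  show ((r : ℕ) : E) * (((r : ℕ) : E))⁻¹ = 1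
  exact mul_inv_cancel₀ (Nat.cast_ne_zero.mpr hr0)

/-- **`β x ∈ chart A₀ (α x)` for a rational coordinate with a `j`-relation**, on the `E`-forms
(helper42's `beta_mem_chart_of_rel`): `x` rational with the two descended setups, and
`j(q^M) · D(x) = N(x)` with `N`, `D` monic over `ℤ`, `deg D < deg N`, `a N + b D = r` for an
integer `r` prime to `q`. -/
theorem betaForm_mem_chart_of_jrel (hTG : TwoGauss M q hqM A hA O₁ w)
    (E : IntermediateField ℚ Kb) [IsDiscreteValuationRing ↥(A.comap (algebraMap E Kb))]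
    (x : ↥(ratForm M E)) (hxrat : (x : FN M) ∈ Set.range (ratEmb M))
    (hS : @H19.DSetup ↥(A.comap (algebraMap E Kb)) _ ↥(ratForm M E) _
      (H19.algComap (A.comap (algebraMap E Kb)) (ratForm M E)) (gaussForm M hqM A hA E) x)
    (hS' : @H19.DSetup ↥(A.comap (algebraMap E Kb)) _ ↥(ratForm M E) _
      (H19.algComap (A.comap (algebraMap E Kb)) (ratForm M E)) (gaussForm M hqM A hA E) x⁻¹)
    (N D : ℤ[X]) (hN : N.Monic) (hD : D.Monic) (hdeg : D.natDegree < N.natDegree)
    (hrel : Fermat.Agent.S18.H28.jtop M * aeval (x : FN M) D = aeval (x : FN M) N)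
    (a b : ℤ[X]) (r : ℕ) (hr : ¬ q ∣ r) (hab : a * N + b * D = C ((r : ℕ) : ℤ)) :
    haveI : NeZero q := ⟨hqF.out.ne_zero⟩
    betaForm M q E x ∈ @H19.chart ↥(A.comap (algebraMap E Kb)) _ ↥(ratForm (M * q) E) _
      (H19.algComap (A.comap (algebraMap E Kb)) (ratForm (M * q) E)) (alphaForm M q E x) := by
  have hq : q.Prime := hqF.out
  haveI : NeZero q := ⟨hq.ne_zero⟩
  letI iK := H19.algComap (A.comap (algebraMap E Kb)) (ratForm M E)
  letI iL := H19.algComap (A.comap (algebraMap E Kb)) (ratForm (M * q) E)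
  letI iKL := algAlpha M q E
  letI mK : Module ↥(A.comap (algebraMap E Kb)) ↥(ratForm M E) := iK.toModule
  letI mL : Module ↥(A.comap (algebraMap E Kb)) ↥(ratForm (M * q) E) := iL.toModule
  letI mKL : Module ↥(ratForm M E) ↥(ratForm (M * q) E) := iKL.toModule
  haveI iT := isScalarTower_algAlpha M q E A
  haveI iF := Fermat.Agent.S34.H78.faithfulSMul_comap A E (ratForm M E)
  haveI iFL := Fermat.Agent.S34.H78.faithfulSMul_comap A E (ratForm (M * q) E)
  obtain ⟨ϖ, hϖ⟩ := IsDiscreteValuationRing.exists_irreducible ↥(A.comap (algebraMap E Kb))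
  -- F-DEG and the two-valuation fields over `E`
  have hdegKL := Fermat.Agent.S34.H59.finrank_alphaForm M q E hq hqM
  have hfinKL := Fermat.Agent.S34.H59.finite_alphaForm M q E hq hqM
  have hG := vGood_ratForm_of_finrank hTG E ϖ hϖ x hS hS' hdegKL
  -- `j(q^M)` on the `E`-form
  have hjmem : Fermat.Agent.S18.H28.jtop M ∈ ratForm M E := by
    rw [← Fermat.Agent.S34.H19.ratEmb_jqNFull]
    exact ratEmb_mem_ratForm M E _
  have hx0 : x ≠ 0 := Fermat.Agent.S34.H42.dsetup_ne_zero (gaussForm M hqM A hA E) x hS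
  have hj0 : (⟨Fermat.Agent.S18.H28.jtop M, hjmem⟩ : ↥(ratForm M E)) ≠ 0 := by
    intro h0
    exact Fermat.Agent.S34.H42.jFN_ne_zero M M dvd_rfl (congrArg Subtype.val h0)
  -- the relation over `A ∩ E`
  have hrelK : (⟨Fermat.Agent.S18.H28.jtop M, hjmem⟩ : ↥(ratForm M E)) *
      aeval x (D.map (algebraMap ℤ ↥(A.comap (algebraMap E Kb)))) =
      aeval x (N.map (algebraMap ℤ ↥(A.comap (algebraMap E Kb)))) := by
    rw [aeval_map_algebraMap, aeval_map_algebraMap]
    apply (algebraMap ↥(ratForm M E) (FN M)).injective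
    rw [map_mul, ← aeval_algebraMap_apply, ← aeval_algebraMap_apply]
    exact hrel
  have hdeg' : (D.map (algebraMap ℤ ↥(A.comap (algebraMap E Kb)))).natDegree <
      (N.map (algebraMap ℤ ↥(A.comap (algebraMap E Kb)))).natDegree := by
    rw [hN.natDegree_map, hD.natDegree_map]
    exact hdeg
  have hcop : IsCoprime (N.map (algebraMap ℤ ↥(A.comap (algebraMap E Kb))))
      (D.map (algebraMap ℤ ↥(A.comap (algebraMap E Kb)))) := by
    obtain ⟨u, hu⟩ := isUnit_natCast_comap A hA E r hr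
    refine ⟨C (↑u⁻¹ : ↥(A.comap (algebraMap E Kb))) *
        a.map (algebraMap ℤ ↥(A.comap (algebraMap E Kb))),
      C (↑u⁻¹ : ↥(A.comap (algebraMap E Kb))) *
        b.map (algebraMap ℤ ↥(A.comap (algebraMap E Kb))), ?_⟩
    have h1 := congrArg (Polynomial.map (algebraMap ℤ ↥(A.comap (algebraMap E Kb)))) hab
    rw [Polynomial.map_add, Polynomial.map_mul, Polynomial.map_mul, Polynomial.map_C,
      eq_intCast, Int.cast_natCast, ← hu] at h1
    calc C (↑u⁻¹ : ↥(A.comap (algebraMap E Kb))) * a.map (algebraMap ℤ _) * N.map (algebraMap ℤ _) +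
          C (↑u⁻¹ : ↥(A.comap (algebraMap E Kb))) * b.map (algebraMap ℤ _) *
            D.map (algebraMap ℤ _)
        = C (↑u⁻¹ : ↥(A.comap (algebraMap E Kb))) *
            (a.map (algebraMap ℤ _) * N.map (algebraMap ℤ _) +
              b.map (algebraMap ℤ _) * D.map (algebraMap ℤ _)) := by ring
      _ = 1 := by rw [h1, ← C_mul, Units.inv_mul, C_1]
  -- the modular equations for `j(q^M)`
  obtain ⟨Φ, hΦ⟩ := Fermat.Agent.S28.hasModPolys q hq
  obtain ⟨h12, h21⟩ := evalY_alphaForm_betaForm_jtop M q E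
    (⟨Fermat.Agent.S18.H28.jtop M, hjmem⟩ : ↥(ratForm M E)) rfl hΦ
  -- Kronecker at the rational function `x`
  obtain ⟨g, hg⟩ := hxrat
  have hxO : (x : FN M) ∈ H66.gaussO A M hA hqM := by
    have h := hS.gauss Polynomial.X ⟨1, by rw [coeff_X_one]; exact isUnit_one⟩
    rw [aeval_X] at h
    exact h.1
  obtain ⟨s, hs⟩ := Fermat.Agent.S54.H94.exists_isFrobeniusAt_of_liesOverPrime A hq hA
  have hfix : arithmeticRingAut (modularFunctionFieldFull M) s⁻¹ (x : FN M) = (x : FN M) := by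
    rw [← hg]
    exact Fermat.Agent.S34.H61.arithmeticRingAut_ratEmb M s⁻¹ g
  have hk₁ := hTG.kronecker s hs _ hxO
  rw [hfix] at hk₁
  have hk₂ := hTG.kronecker₂ s hs _ hxO
  rw [hfix] at hk₂
  have hkx₁ : betaForm M q E x - alphaForm M q E x ^ q ∈ (gaussOne M q O₁ E).nonunits := by
    rw [← mem_nonunits_iff_of_mem_iff (algebraMap ↥(ratForm (M * q) E) (FN (M * q)))
      (gaussOne M q O₁ E) O₁ (fun f => Iff.rfl)]
    exact hk₁
  have hkx₂ : alphaForm M q E x - betaForm M q E x ^ q ∈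
      (gaussTwoForm M q O₁ w E).nonunits := by
    rw [← mem_nonunits_iff_of_mem_iff (algebraMap ↥(ratForm (M * q) E) (FN (M * q)))
      (gaussTwoForm M q O₁ w E) (gaussTwo M q O₁ w) (fun f => Iff.rfl)]
    exact hk₂
  -- the chart of `α x` over `A ∩ E`
  have htr : Transcendental ↥(A.comap (algebraMap E Kb)) (alphaForm M q E x) :=
    transcendental_top (L := ↥(ratForm (M * q) E)) x hS.transc
  haveI := hS.finite
  haveI : Module.Finite ↥(ratForm M E) ↥(ratForm (M * q) E) := hfinKL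
  have hfin : Module.Finite ↥(H19.ratSub ↥(A.comap (algebraMap E Kb)) (alphaForm M q E x))
      ↥(ratForm (M * q) E) := finite_ratSub_top (L := ↥(ratForm (M * q) E)) x
  have hfrac := Fermat.Agent.S18.H95.chart_frac_sub (alphaForm M q E x) htr hfin
  haveI hicl : IsIntegrallyClosed
      ↥(H19.chart ↥(A.comap (algebraMap E Kb)) (alphaForm M q E x)) :=
    Fermat.Agent.S18.H95.isIntegrallyClosed_chart (alphaForm M q E x)
  exact Fermat.Agent.S34.H42.beta_mem_chart_of_rel ϖ hϖ x
    (⟨Fermat.Agent.S18.H28.jtop M, hjmem⟩ : ↥(ratForm M E)) hx0 hj0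
    (gaussOne M q O₁ E) (gaussTwoForm M q O₁ w E) (betaForm M q E)
    (fun a => betaForm_algebraMap M q E (a : E)) hfrac hG.le₁₁ hG.le₁₂ hG.unif₁ hG.unif₂ hG.sat₁
    (N.map (algebraMap ℤ ↥(A.comap (algebraMap E Kb))))
    (D.map (algebraMap ℤ ↥(A.comap (algebraMap E Kb)))) hrelK (hN.map _) (hD.map _) hdeg' hcop
    hq.ne_zero hΦ h12 h21 hkx₁ hkx₂

/-- **X3: the hypothesis `hβC` of `H68.crossing_regular_of_dsetup` over `E`**, for the standard
base function (`j(q^M)` for `q ≠ 2, 3`; the Hauptmodul of level two for `q = 3`, of level three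
for `q = 2`): `β` maps the chart of `x₀` over `A ∩ E` into the chart of `α x₀`.  `E` is any
intermediate field (no normality) over which `A ∩ E` is a discrete valuation ring. -/
theorem hbetaC_ratForm (hTG : TwoGauss M q hqM A hA O₁ w) (x₀ : FN M)
    (hx₀ : Fermat.Agent.S34.H30.IsBase M q hqM A hA x₀)
    (hB : Fermat.Agent.S34.H30.StdB M q x₀) (E : IntermediateField ℚ Kb)
    [IsDiscreteValuationRing ↥(A.comap (algebraMap E Kb))] (hx : x₀ ∈ ratForm M E) :
    haveI : NeZero q := ⟨hqF.out.ne_zero⟩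
    ∀ f ∈ @H19.chart ↥(A.comap (algebraMap E Kb)) _ ↥(ratForm M E) _
        (H19.algComap (A.comap (algebraMap E Kb)) (ratForm M E)) (⟨x₀, hx⟩ : ↥(ratForm M E)),
      betaForm M q E f ∈ @H19.chart ↥(A.comap (algebraMap E Kb)) _ ↥(ratForm (M * q) E) _
        (H19.algComap (A.comap (algebraMap E Kb)) (ratForm (M * q) E))
        (alphaForm M q E ⟨x₀, hx⟩) := by
  have hq : q.Prime := hqF.out
  haveI : NeZero q := ⟨hq.ne_zero⟩
  refine betaForm_mem_chart_of_mem M q A E ⟨x₀, hx⟩ ?_
  obtain ⟨hS, hS'⟩ := hx₀.2 E hx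
  rcases hB.cases with ⟨-, -, hj⟩ | ⟨hq3, n, hn, hN, hh⟩ | ⟨hq2, n, hn, hN, hh⟩
  · exact betaForm_jtop_mem_chart M q A E ⟨x₀, hx⟩ hj
  · haveI := hn
    refine betaForm_mem_chart_of_jrel hTG E ⟨x₀, hx⟩ hx₀.1 hS hS' ((X + C 16) ^ 3) X
      monic_haupt_two_num monic_X (by rw [natDegree_haupt_two_num, natDegree_X]; norm_num) ?_
      1 (-(X ^ 2 + C 48 * X + C 768)) 4096 ?_ ?_
    · show Fermat.Agent.S18.H28.jtop M * aeval x₀ (X : ℤ[X]) = aeval x₀ ((X + C 16) ^ 3 : ℤ[X])
      rw [hh]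
      exact hauptTwo_rel_poly n M hN
    · rw [hq3]
      norm_num
    · rw [haupt_two_bezout]
      norm_num
  · haveI := hn
    refine betaForm_mem_chart_of_jrel hTG E ⟨x₀, hx⟩ hx₀.1 hS hS' ((X + C 27) * (X + C 3) ^ 3) X
      monic_haupt_three_num monic_X (by rw [natDegree_haupt_three_num, natDegree_X]; norm_num) ?_
      1 (-(X ^ 3 + C 36 * X ^ 2 + C 270 * X + C 756)) 729 ?_ ?_
    · show Fermat.Agent.S18.H28.jtop M * aeval x₀ (X : ℤ[X]) =
        aeval x₀ ((X + C 27) * (X + C 3) ^ 3 : ℤ[X])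
      rw [hh]
      exact hauptThree_rel_poly n M hN
    · rw [hq2]
      norm_num
    · rw [haupt_three_bezout]
      norm_num

end Fermat.Agent.S34.H43
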