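/-
S34 / Program B', M6b (E1), supplier (β) for the Hauptmoduln (helper43): `H68.HauptBeta`, the
hypothesis `hβ` of helper68's `H68.regularCrossLeaf_of`.

* `betaSupplyAt_std` : `H68.BetaSupplyAt` for the standard base function (all three cases of
  `H30.StdB`), over ANY intermediate field `E` with `A ∩ E` a discrete valuation ring — a
  restatement of `H43.hbetaC_ratForm`;
* `hauptBeta : H68.HauptBeta` : the two Hauptmodul cases (`q = 3`: level two; `q = 2`: level
  three) over the inertia field.
-/
import Fermat.Agent.S34.H43.BetaChart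
import Fermat.Agent.S34.H68.RegCross

set_option autoImplicit false
set_option linter.style.haveILetI false
set_option linter.unusedSectionVars false

open AlgebraicCurve ModularCurve Polynomial

noncomputable section

namespace Fermat.Agent.S34.H43

open Fermat.Agent.S18 Fermat.Agent.S18.H74 Fermat.Agent.S18.H19 Fermat.Agent.S34.H19
  Fermat.Agent.S34.H61 Fermat.Agent.S34.H64 Fermat.Agent.S34.H30 Fermat.Agent.S34.H77
  Fermat.Agent.S34.H92 Fermat.Agent.S34.H68

/-- **Supplier (β) for the standard base function**, over any intermediate field `E` with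
`A ∩ E` a discrete valuation ring. -/
theorem betaSupplyAt_std {M q : ℕ} [NeZero M] [hqF : Fact q.Prime] {hqM : ¬ q ∣ M}
    {A : ValuationSubring Kb} {hA : A.LiesOverPrime q} {O₁ : ValuationSubring (FN (M * q))}
    {w : FN (M * q) ≃+* FN (M * q)} (hTG : TwoGauss M q hqM A hA O₁ w) (x₀ : FN M)
    (hx₀ : IsBase M q hqM A hA x₀) (hB : StdB M q x₀) (E : IntermediateField ℚ Kb)
    [IsDiscreteValuationRing ↥(A.comap (algebraMap E Kb))] (hx : x₀ ∈ ratForm M E) :
    BetaSupplyAt M q A E ⟨x₀, hx⟩ :=
  hbetaC_ratForm hTG x₀ hx₀ hB E hx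

/-- **`H68.HauptBeta`**: `β` maps the chart of the Hauptmodul base function over the inertia
field into the chart of its `α`-image. -/
theorem hauptBeta : HauptBeta := by
  intro M q _ hqF hqM _ A hA x₀ hx₀ hH K₀ _ _ hx
  have hq : q.Prime := hqF.out
  obtain ⟨O₁, w, hTG⟩ := twoGaussStatement M q hqM A hA
  have hAtop : A ≠ ⊤ := InertiaBase.ne_top_of_liesOverPrime hq hA
  haveI := finiteDimensional_inertiaField A K₀
  haveI := Fermat.Agent.S34.H78.isDVR_comap hAtop (inertiaField A K₀)
  exact betaSupplyAt_std hTG x₀ hx₀ (stdB_of_isStd (Or.inr hH)) (inertiaField A K₀) hx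

end Fermat.Agent.S34.H43
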